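/-
S20, component (∞-abs), part 1: orbit bookkeeping for a permutation `τ` of a finite type `X`.
For every `x` we choose the base point `cfBase τ x` of its `τ`-orbit and the index `cfIdx τ x`
with `τ ^ (cfIdx τ x) (cfBase τ x) = x`, `cfIdx τ x < cfPeriod τ x` (the orbit size).
-/
import Mathlib.GroupTheory.GroupAction.Quotient
import Mathlib.Dynamics.PeriodicPts.Lemmas
import Mathlib.GroupTheory.Perm.Basic
import Mathlib.GroupTheory.OrderOfElement

set_option autoImplicit false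
set_option linter.unusedSectionVars false

namespace Fermat.Agent.S20

variable {X : Type} [Fintype X] [DecidableEq X] (τ : Equiv.Perm X)

/-- The chosen base point of the `τ`-orbit of `x`. -/
noncomputable def cfBase (x : X) : X :=
  (Quotient.mk (MulAction.orbitRel (Subgroup.zpowers τ) X) x).out

/-- The size of the `τ`-orbit of `x` (minimal period of the base point). -/
noncomputable def cfPeriod (x : X) : ℕ := Function.minimalPeriod τ (cfBase τ x)

lemma cf_pow_orderOf_apply (x : X) : (τ ^ orderOf τ) x = x := by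
  rw [pow_orderOf_eq_one]; rfl

lemma cf_isPeriodicPt (x : X) : Function.IsPeriodicPt τ (orderOf τ) x := by
  unfold Function.IsPeriodicPt Function.IsFixedPt
  rw [Equiv.Perm.iterate_eq_pow]
  exact cf_pow_orderOf_apply τ x

lemma cfPeriod_pos (x : X) : 0 < cfPeriod τ x :=
  Function.minimalPeriod_pos_of_mem_periodicPts
    (Function.mk_mem_periodicPts (orderOf_pos τ) (cf_isPeriodicPt τ _))

lemma cf_pow_period_apply (x : X) : (τ ^ cfPeriod τ x) (cfBase τ x) = cfBase τ x := by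
  have := Function.isPeriodicPt_minimalPeriod τ (cfBase τ x)
  unfold Function.IsPeriodicPt Function.IsFixedPt at this
  rwa [Equiv.Perm.iterate_eq_pow] at this

lemma cf_period_dvd_of_pow_apply {x : X} {n : ℕ} (h : (τ ^ n) (cfBase τ x) = cfBase τ x) :
    cfPeriod τ x ∣ n := by
  apply Function.IsPeriodicPt.minimalPeriod_dvd
  unfold Function.IsPeriodicPt Function.IsFixedPt
  rwa [Equiv.Perm.iterate_eq_pow]

lemma cf_exists_zpow (x : X) : ∃ k : ℤ, (τ ^ k) (cfBase τ x) = x := by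
  have h : (MulAction.orbitRel (Subgroup.zpowers τ) X) (cfBase τ x) x := Quotient.mk_out (s := MulAction.orbitRel (Subgroup.zpowers τ) X) x
  rw [MulAction.orbitRel_apply, MulAction.mem_orbit_iff] at h
  obtain ⟨⟨g, hg⟩, hgx⟩ := h
  obtain ⟨k, rfl⟩ := Subgroup.mem_zpowers_iff.mp hg
  refine ⟨-k, ?_⟩
  have : (τ ^ k) x = cfBase τ x := hgx
  rw [← this, ← Equiv.Perm.mul_apply, ← zpow_add]
  simp

lemma cf_exists_pow (x : X) : ∃ s : ℕ, (τ ^ s) (cfBase τ x) = x := by
  obtain ⟨k, hk⟩ := cf_exists_zpow τ x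
  refine ⟨(k % (orderOf τ : ℤ)).toNat, ?_⟩
  have hpos : (0 : ℤ) < orderOf τ := by exact_mod_cast orderOf_pos τ
  have h1 : ((k % (orderOf τ : ℤ)).toNat : ℤ) = k % (orderOf τ : ℤ) :=
    Int.toNat_of_nonneg (Int.emod_nonneg _ hpos.ne')
  rw [← zpow_natCast, h1, zpow_mod_orderOf]
  exact hk

open Classical in
/-- The index of `x` in its orbit: the least `s` with `τ ^ s (cfBase τ x) = x`. -/
noncomputable def cfIdx (x : X) : ℕ := Nat.find (cf_exists_pow τ x)

open Classical in
lemma cf_pow_idx_apply (x : X) : (τ ^ cfIdx τ x) (cfBase τ x) = x :=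
  Nat.find_spec (cf_exists_pow τ x)

open Classical in
lemma cfIdx_lt (x : X) : cfIdx τ x < cfPeriod τ x := by
  by_contra hlt
  rw [not_lt] at hlt
  have hmin := Nat.find_min (cf_exists_pow τ x) (m := cfIdx τ x - cfPeriod τ x)
    (Nat.sub_lt_self (cfPeriod_pos τ x) hlt)
  apply hmin
  have h := cf_pow_idx_apply τ x
  have e : cfIdx τ x = (cfIdx τ x - cfPeriod τ x) + cfPeriod τ x := by omega
  rw [e, pow_add, Equiv.Perm.mul_apply, cf_pow_period_apply] at h
  exact h

lemma cfBase_eq_of_rel {x y : X} (h : ∃ k : ℤ, (τ ^ k) x = y) : cfBase τ x = cfBase τ y := by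
  unfold cfBase
  congr 1
  apply Quotient.sound
  show (MulAction.orbitRel (Subgroup.zpowers τ) X) x y
  rw [MulAction.orbitRel_apply, MulAction.mem_orbit_iff]
  obtain ⟨k, hk⟩ := h
  refine ⟨⟨τ ^ (-k), Subgroup.mem_zpowers_iff.mpr ⟨-k, rfl⟩⟩, ?_⟩
  show (τ ^ (-k)) y = x
  rw [← hk, ← Equiv.Perm.mul_apply, ← zpow_add]
  simp

lemma cfBase_apply (x : X) : cfBase τ (τ x) = cfBase τ x :=
  (cfBase_eq_of_rel τ ⟨1, by simp⟩).symm

lemma cfBase_pow_apply (s : ℕ) (x : X) : cfBase τ ((τ ^ s) x) = cfBase τ x :=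
  (cfBase_eq_of_rel τ ⟨s, by simp⟩).symm

lemma cfBase_cfBase (x : X) : cfBase τ (cfBase τ x) = cfBase τ x := by
  obtain ⟨k, hk⟩ := cf_exists_zpow τ x
  exact cfBase_eq_of_rel τ ⟨k, hk⟩

lemma cfPeriod_apply (x : X) : cfPeriod τ (τ x) = cfPeriod τ x := by
  unfold cfPeriod; rw [cfBase_apply]

lemma cfPeriod_cfBase (x : X) : cfPeriod τ (cfBase τ x) = cfPeriod τ x := by
  unfold cfPeriod; rw [cfBase_cfBase]

lemma cfPeriod_eq_of_base_eq {x y : X} (h : cfBase τ x = cfBase τ y) :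
    cfPeriod τ x = cfPeriod τ y := by
  unfold cfPeriod; rw [h]

/-- Two exponents giving the same point of the orbit are congruent modulo the period. -/
lemma cf_modEq_of_pow_apply_eq {x : X} {a a' : ℕ}
    (h : (τ ^ a) (cfBase τ x) = (τ ^ a') (cfBase τ x)) : a ≡ a' [MOD cfPeriod τ x] := by
  wlog hle : a ≤ a' generalizing a a'
  · exact (this h.symm (le_of_not_ge hle)).symm
  have e : a' = (a' - a) + a := by omega
  rw [e, pow_add, Equiv.Perm.mul_apply] at h
  have h2 : (τ ^ (a' - a)) ((τ ^ a) (cfBase τ x)) = (τ ^ a) (cfBase τ x) := h.symm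
  have h3 : (τ ^ (a' - a)) (cfBase τ x) = cfBase τ x := by
    apply (τ ^ a).injective
    rw [← Equiv.Perm.mul_apply, ← pow_add, add_comm, pow_add, Equiv.Perm.mul_apply]
    exact h2
  have hd := cf_period_dvd_of_pow_apply τ h3
  exact (Nat.modEq_of_dvd (by
    have : ((a' : ℤ) - a) = ((a' - a : ℕ) : ℤ) := by omega
    rw [this]; exact_mod_cast hd))

/-- `cfIdx (τ x) ≡ cfIdx x + 1` modulo the period. -/
lemma cfIdx_apply_modEq (x : X) : cfIdx τ (τ x) ≡ cfIdx τ x + 1 [MOD cfPeriod τ x] := by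
  apply cf_modEq_of_pow_apply_eq τ (x := x)
  have h1 := cf_pow_idx_apply τ (τ x)
  rw [cfBase_apply] at h1
  rw [h1, pow_succ', Equiv.Perm.mul_apply, cf_pow_idx_apply]

/-- A point is determined by its base point and index. -/
lemma cf_eq_iff {x y : X} : x = y ↔ cfBase τ x = cfBase τ y ∧ cfIdx τ x = cfIdx τ y := by
  constructor
  · rintro rfl; exact ⟨rfl, rfl⟩
  · rintro ⟨h1, h2⟩
    rw [← cf_pow_idx_apply τ x, ← cf_pow_idx_apply τ y, h1, h2]

/-- The index of `τ ^ s (base)` is `s` for `s` below the period. -/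
lemma cfIdx_pow_base {x : X} {s : ℕ} (hs : s < cfPeriod τ x) :
    cfIdx τ ((τ ^ s) (cfBase τ x)) = s := by
  set y := (τ ^ s) (cfBase τ x) with hy
  have hb : cfBase τ y = cfBase τ x := by
    rw [hy, cfBase_pow_apply, cfBase_cfBase]
  have h1 := cf_pow_idx_apply τ y
  rw [hb] at h1
  have hmod := cf_modEq_of_pow_apply_eq τ (x := x) (h1.trans hy)
  have hlt := cfIdx_lt τ y
  rw [cfPeriod_eq_of_base_eq τ hb] at hlt
  exact Nat.ModEq.eq_of_lt_of_lt hmod hlt hs

end Fermat.Agent.S20
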