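/-
S20, component (∞-abs), part 2: sums over orbits and the count `∑ idx / period = (n - c) / 2`.
-/
import Fermat.Agent.S20.CuspFamily.Orbit
import Mathlib.Algebra.BigOperators.Intervals
import Mathlib.Algebra.Order.BigOperators.Group.Finset
import Mathlib.Data.Complex.Basic
import Mathlib.Algebra.BigOperators.Field
import Mathlib.SetTheory.Cardinal.Finite
import Mathlib.Tactic.FieldSimp
import Mathlib.Tactic.Ring
import Mathlib.Tactic.Linarith

set_option autoImplicit false
set_option linter.unusedSectionVars false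

namespace Fermat.Agent.S20

open Finset

variable {X : Type} [Fintype X] [DecidableEq X] (τ : Equiv.Perm X)

/-- A sum over the orbit of `x` is a sum over the indices below the period. -/
lemma cf_sum_orbit {M : Type*} [AddCommMonoid M] (x : X) (F : X → M) :
    ∑ y ∈ univ.filter (fun y => cfBase τ y = cfBase τ x), F y =
      ∑ s ∈ range (cfPeriod τ x), F ((τ ^ s) (cfBase τ x)) := by
  refine Finset.sum_nbij' (fun y => cfIdx τ y) (fun s => (τ ^ s) (cfBase τ x)) ?_ ?_ ?_ ?_ ?_
  · intro y hy
    simp only [mem_filter, mem_univ, true_and] at hy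
    simp only [mem_range]
    rw [← cfPeriod_eq_of_base_eq τ hy]
    exact cfIdx_lt τ y
  · intro s _
    simp only [mem_filter, mem_univ, true_and]
    rw [cfBase_pow_apply, cfBase_cfBase]
  · intro y hy
    simp only [mem_filter, mem_univ, true_and] at hy
    show (τ ^ cfIdx τ y) (cfBase τ x) = y
    rw [← hy]
    exact cf_pow_idx_apply τ y
  · intro s hs
    simp only [mem_range] at hs
    exact cfIdx_pow_base τ hs
  · intro y hy
    simp only [mem_filter, mem_univ, true_and] at hy
    show F y = F ((τ ^ cfIdx τ y) (cfBase τ x))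
    rw [← hy, cf_pow_idx_apply]

/-- The set of base points. -/
noncomputable def cfBasePts : Finset X := univ.filter (fun x => cfBase τ x = x)

lemma mem_cfBasePts {x : X} : x ∈ cfBasePts τ ↔ cfBase τ x = x := by
  simp [cfBasePts]

/-- A sum over `X` is a double sum over base points and indices. -/
lemma cf_sum_eq_sum_base {M : Type*} [AddCommMonoid M] (F : X → M) :
    ∑ y : X, F y = ∑ x₀ ∈ cfBasePts τ, ∑ s ∈ range (cfPeriod τ x₀), F ((τ ^ s) x₀) := by
  rw [← Finset.sum_fiberwise (s := univ) (g := cfBase τ) (f := F)]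
  rw [← Finset.sum_filter_add_sum_filter_not univ (fun x₀ => cfBase τ x₀ = x₀)]
  have h0 : ∑ x₀ ∈ univ.filter (fun x₀ => ¬ cfBase τ x₀ = x₀),
      ∑ y ∈ univ.filter (fun y => cfBase τ y = x₀), F y = 0 := by
    refine Finset.sum_eq_zero fun x₀ hx₀ => ?_
    simp only [mem_filter, mem_univ, true_and] at hx₀
    have : univ.filter (fun y => cfBase τ y = x₀) = ∅ := by
      ext y
      simp only [mem_filter, mem_univ, true_and, notMem_empty, iff_false]
      intro hy
      exact hx₀ (by rw [← hy, cfBase_cfBase])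
    rw [this, sum_empty]
  rw [h0, add_zero]
  refine Finset.sum_congr rfl fun x₀ hx₀ => ?_
  have hx₀' : cfBase τ x₀ = x₀ := (mem_cfBasePts τ).mp hx₀
  have := cf_sum_orbit τ x₀ F
  rw [hx₀'] at this
  exact this

/-- The number of orbits equals the number of base points. -/
lemma cf_card_basePts :
    Nat.card (MulAction.orbitRel.Quotient (Subgroup.zpowers τ) X) = (cfBasePts τ).card := by
  classical
  have e : MulAction.orbitRel.Quotient (Subgroup.zpowers τ) X ≃ {x // x ∈ cfBasePts τ} :=
    { toFun := fun q => ⟨q.out, by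
        rw [mem_cfBasePts]
        unfold cfBase
        rw [Quotient.out_eq]⟩
      invFun := fun x => Quotient.mk _ x.1
      left_inv := fun q => Quotient.out_eq q
      right_inv := fun x => by
        have hx : cfBase τ x.1 = x.1 := (mem_cfBasePts τ).mp x.2
        exact Subtype.ext hx }
  rw [Nat.card_congr e, Nat.card_eq_fintype_card, Fintype.card_coe]

lemma cf_card_eq_sum_period : Fintype.card X = ∑ x₀ ∈ cfBasePts τ, cfPeriod τ x₀ := by
  have := cf_sum_eq_sum_base τ (fun _ : X => (1 : ℕ))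
  simpa using this

lemma cf_sum_range_cast (n : ℕ) : ∑ s ∈ range n, (s : ℂ) = (n : ℂ) * ((n : ℂ) - 1) / 2 := by
  induction n with
  | zero => simp
  | succ k ih =>
    rw [Finset.sum_range_succ, ih]
    push_cast
    ring

/-- `∑_y idx(y) / period(y) = (n - c) / 2`. -/
lemma cf_sum_idx_div_period :
    ∑ y : X, ((cfIdx τ y : ℂ) / (cfPeriod τ y : ℂ)) =
      ((Fintype.card X : ℂ) -
        (Nat.card (MulAction.orbitRel.Quotient (Subgroup.zpowers τ) X) : ℂ)) / 2 := by
  have hA : ∑ y : X, ((cfIdx τ y : ℂ) / (cfPeriod τ y : ℂ)) =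
      ∑ x₀ ∈ cfBasePts τ, ((cfPeriod τ x₀ : ℂ) - 1) / 2 := by
    rw [cf_sum_eq_sum_base τ]
    refine Finset.sum_congr rfl fun x₀ hx₀ => ?_
    have hx₀' : cfBase τ x₀ = x₀ := (mem_cfBasePts τ).mp hx₀
    have hW : (cfPeriod τ x₀ : ℂ) ≠ 0 := by
      exact_mod_cast (cfPeriod_pos τ x₀).ne'
    have h1 : ∀ s ∈ range (cfPeriod τ x₀),
        ((cfIdx τ ((τ ^ s) x₀) : ℂ) / (cfPeriod τ ((τ ^ s) x₀) : ℂ)) =
          (s : ℂ) / (cfPeriod τ x₀ : ℂ) := by
      intro s hs
      simp only [mem_range] at hs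
      have e1 : cfIdx τ ((τ ^ s) x₀) = s := by
        have := cfIdx_pow_base τ (x := x₀) hs
        rwa [hx₀'] at this
      have e2 : cfPeriod τ ((τ ^ s) x₀) = cfPeriod τ x₀ :=
        cfPeriod_eq_of_base_eq τ (cfBase_pow_apply τ s x₀)
      rw [e1, e2]
    rw [Finset.sum_congr rfl h1, ← Finset.sum_div, cf_sum_range_cast]
    field_simp
  have hn : (Fintype.card X : ℂ) = ∑ x₀ ∈ cfBasePts τ, (cfPeriod τ x₀ : ℂ) := by
    rw [cf_card_eq_sum_period τ, Nat.cast_sum]
  have hc : (Nat.card (MulAction.orbitRel.Quotient (Subgroup.zpowers τ) X) : ℂ) =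
      ∑ _x₀ ∈ cfBasePts τ, (1 : ℂ) := by
    rw [cf_card_basePts, Finset.sum_const, nsmul_eq_mul, mul_one]
  rw [hA, hn, hc, ← Finset.sum_sub_distrib, Finset.sum_div]

end Fermat.Agent.S20
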