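/-
S20, component (∞-abs), part 3: the block discrete Fourier transform matrix attached to a
permutation, its explicit inverse and its behaviour under `τ`.
-/
import Fermat.Agent.S20.CuspFamily.Count
import Mathlib.Analysis.SpecialFunctions.Complex.Log
import Mathlib.Analysis.SpecialFunctions.Trigonometric.Basic
import Mathlib.LinearAlgebra.Matrix.NonsingularInverse
import Mathlib.Algebra.Field.GeomSum

set_option autoImplicit false
set_option linter.unusedSectionVars false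

namespace Fermat.Agent.S20

open Finset Complex
open scoped Real

/-- The phase `exp (2πi a / W)`. -/
noncomputable def cfPhase (a : ℤ) (W : ℕ) : ℂ := Complex.exp (2 * π * I * a / W)

lemma cfPhase_add (a b : ℤ) (W : ℕ) : cfPhase (a + b) W = cfPhase a W * cfPhase b W := by
  unfold cfPhase
  rw [← Complex.exp_add]
  congr 1
  push_cast
  ring

lemma cfPhase_zero (W : ℕ) : cfPhase 0 W = 1 := by
  simp [cfPhase]

lemma cfPhase_ne_zero (a : ℤ) (W : ℕ) : cfPhase a W ≠ 0 := Complex.exp_ne_zero _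

lemma cfPhase_eq_one_iff {a : ℤ} {W : ℕ} (hW : 0 < W) : cfPhase a W = 1 ↔ (W : ℤ) ∣ a := by
  have hW' : (W : ℂ) ≠ 0 := by exact_mod_cast hW.ne'
  unfold cfPhase
  rw [Complex.exp_eq_one_iff]
  constructor
  · rintro ⟨n, hn⟩
    refine ⟨n, ?_⟩
    have h2 : (2 * (π : ℂ) * I) ≠ 0 := by
      simp [Real.pi_ne_zero, Complex.I_ne_zero]
    rw [div_eq_iff hW'] at hn
    have h3 : (2 * (π : ℂ) * I) * a = (2 * (π : ℂ) * I) * (W * n) := by
      rw [hn]; ring
    have := mul_left_cancel₀ h2 h3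
    exact_mod_cast this
  · rintro ⟨n, rfl⟩
    refine ⟨n, ?_⟩
    push_cast
    field_simp

lemma cfPhase_of_dvd {a : ℤ} {W : ℕ} (hW : 0 < W) (h : (W : ℤ) ∣ a) : cfPhase a W = 1 :=
  (cfPhase_eq_one_iff hW).mpr h

lemma cfPhase_eq_of_modEq {a b : ℤ} {W : ℕ} (hW : 0 < W) (h : a ≡ b [ZMOD W]) :
    cfPhase a W = cfPhase b W := by
  have : a = b + (a - b) := by ring
  rw [this, cfPhase_add, cfPhase_of_dvd hW (a := a - b) (Int.modEq_iff_dvd.mp h.symm), mul_one]

lemma cfPhase_mul_nat (k : ℤ) (s : ℕ) (W : ℕ) : cfPhase (s * k) W = cfPhase k W ^ s := by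
  unfold cfPhase
  rw [← Complex.exp_nat_mul]
  congr 1
  push_cast
  ring

/-- Orthogonality of the characters of `ℤ / W`. -/
lemma cfPhase_sum (k : ℤ) {W : ℕ} (hW : 0 < W) :
    ∑ s ∈ range W, cfPhase (s * k) W = if (W : ℤ) ∣ k then (W : ℂ) else 0 := by
  simp_rw [cfPhase_mul_nat]
  split_ifs with h
  · rw [cfPhase_of_dvd hW h]
    simp
  · have hne : cfPhase k W ≠ 1 := fun h1 => h ((cfPhase_eq_one_iff hW).mp h1)
    rw [geom_sum_eq hne]
    have : cfPhase k W ^ W = 1 := by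
      rw [← cfPhase_mul_nat]
      exact cfPhase_of_dvd hW ⟨k, rfl⟩
    rw [this, sub_self, zero_div]

variable {X : Type} [Fintype X] [DecidableEq X] (τ : Equiv.Perm X)

/-- The block DFT matrix. -/
noncomputable def cfD : Matrix X X ℂ := Matrix.of fun x y =>
  if cfBase τ x = cfBase τ y then cfPhase (-((cfIdx τ y : ℤ) * (cfIdx τ x : ℤ))) (cfPeriod τ y)
  else 0

/-- The inverse of the block DFT matrix. -/
noncomputable def cfD' : Matrix X X ℂ := Matrix.of fun y x =>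
  if cfBase τ x = cfBase τ y then
    (cfPeriod τ y : ℂ)⁻¹ * cfPhase ((cfIdx τ y : ℤ) * (cfIdx τ x : ℤ)) (cfPeriod τ y)
  else 0

lemma cfD_apply (x y : X) : cfD τ x y =
    if cfBase τ x = cfBase τ y then cfPhase (-((cfIdx τ y : ℤ) * (cfIdx τ x : ℤ))) (cfPeriod τ y)
    else 0 := rfl

lemma cfD'_apply (y x : X) : cfD' τ y x =
    if cfBase τ x = cfBase τ y then
      (cfPeriod τ y : ℂ)⁻¹ * cfPhase ((cfIdx τ y : ℤ) * (cfIdx τ x : ℤ)) (cfPeriod τ y)
    else 0 := rfl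

/-- Behaviour of the DFT matrix under `τ`. -/
lemma cfD_apply_perm (x y : X) :
    cfD τ (τ x) y = cfPhase (-(cfIdx τ y : ℤ)) (cfPeriod τ y) * cfD τ x y := by
  rw [cfD_apply, cfD_apply, cfBase_apply]
  split_ifs with h
  · rw [← cfPhase_add]
    apply cfPhase_eq_of_modEq (cfPeriod_pos τ y)
    have hmod := cfIdx_apply_modEq τ x
    rw [cfPeriod_eq_of_base_eq τ h] at hmod
    have hmod' : (cfIdx τ (τ x) : ℤ) ≡ (cfIdx τ x : ℤ) + 1 [ZMOD (cfPeriod τ y : ℤ)] := by
      have := (Int.natCast_modEq_iff).mpr hmod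
      simpa using this
    have h2 := (hmod'.mul_left (cfIdx τ y : ℤ)).neg
    calc -((cfIdx τ y : ℤ) * (cfIdx τ (τ x) : ℤ))
        ≡ -((cfIdx τ y : ℤ) * ((cfIdx τ x : ℤ) + 1)) [ZMOD (cfPeriod τ y : ℤ)] := h2
      _ = -(cfIdx τ y : ℤ) + -((cfIdx τ y : ℤ) * (cfIdx τ x : ℤ)) := by ring
  · rw [mul_zero]

/-- `D * D' = 1`. -/
lemma cfD_mul_cfD' : cfD τ * cfD' τ = 1 := by
  ext x x'
  rw [Matrix.mul_apply, Matrix.one_apply]
  by_cases hb : cfBase τ x = cfBase τ x'
  · -- same orbit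
    have hW : cfPeriod τ x = cfPeriod τ x' := cfPeriod_eq_of_base_eq τ hb
    have hWpos := cfPeriod_pos τ x
    have hWne : (cfPeriod τ x : ℂ) ≠ 0 := by exact_mod_cast hWpos.ne'
    have hterm : ∀ y : X, cfD τ x y * cfD' τ y x' =
        if cfBase τ y = cfBase τ x then
          (cfPeriod τ x : ℂ)⁻¹ *
            cfPhase ((cfIdx τ y : ℤ) * ((cfIdx τ x' : ℤ) - (cfIdx τ x : ℤ))) (cfPeriod τ x)
        else 0 := by
      intro y
      rw [cfD_apply, cfD'_apply]
      by_cases hy : cfBase τ y = cfBase τ x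
      · have hWy : cfPeriod τ y = cfPeriod τ x := cfPeriod_eq_of_base_eq τ hy
        rw [if_pos hy.symm, if_pos (hb.symm.trans hy.symm), if_pos hy, hWy]
        rw [mul_left_comm, ← cfPhase_add]
        congr 2
        ring
      · rw [if_neg (fun h => hy h.symm), if_neg hy, zero_mul]
    simp_rw [hterm]
    rw [← Finset.sum_filter, cf_sum_orbit τ x]
    have hterm2 : ∀ s ∈ range (cfPeriod τ x),
        (cfPeriod τ x : ℂ)⁻¹ * cfPhase ((cfIdx τ ((τ ^ s) (cfBase τ x)) : ℤ) *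
          ((cfIdx τ x' : ℤ) - (cfIdx τ x : ℤ))) (cfPeriod τ x) =
        (cfPeriod τ x : ℂ)⁻¹ * cfPhase ((s : ℤ) * ((cfIdx τ x' : ℤ) - (cfIdx τ x : ℤ)))
          (cfPeriod τ x) := by
      intro s hs
      rw [cfIdx_pow_base τ (mem_range.mp hs)]
    rw [Finset.sum_congr rfl hterm2, ← Finset.mul_sum, cfPhase_sum _ hWpos]
    have hlt := cfIdx_lt τ x
    have hlt' := cfIdx_lt τ x'
    rw [← hW] at hlt'
    by_cases hxx : x = x'
    · subst hxx
      rw [if_pos rfl, sub_self, if_pos (dvd_zero _), inv_mul_cancel₀ hWne]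
    · rw [if_neg hxx]
      have hidx : cfIdx τ x ≠ cfIdx τ x' := fun h => hxx ((cf_eq_iff τ).mpr ⟨hb, h⟩)
      have hnd : ¬ ((cfPeriod τ x : ℤ) ∣ (cfIdx τ x' : ℤ) - (cfIdx τ x : ℤ)) := by
        intro hd
        have h0 : (cfIdx τ x' : ℤ) - (cfIdx τ x : ℤ) = 0 := by
          apply Int.eq_zero_of_abs_lt_dvd hd
          rw [abs_lt]
          constructor <;> omega
        apply hidx
        omega
      rw [if_neg hnd, mul_zero]
  · -- different orbits
    have hxx : x ≠ x' := fun h => hb (by rw [h])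
    rw [if_neg hxx]
    refine Finset.sum_eq_zero fun y _ => ?_
    rw [cfD_apply, cfD'_apply]
    by_cases hy : cfBase τ x = cfBase τ y
    · rw [if_pos hy, if_neg (fun h => hb (hy.trans h.symm)), mul_zero]
    · rw [if_neg hy, zero_mul]

lemma cfD'_mul_cfD : cfD' τ * cfD τ = 1 :=
  mul_eq_one_comm.mp (cfD_mul_cfD' τ)

lemma cfD_det_ne_zero : (cfD τ).det ≠ 0 := by
  have h := congrArg Matrix.det (cfD_mul_cfD' τ)
  rw [Matrix.det_mul, Matrix.det_one] at h
  exact left_ne_zero_of_mul_eq_one h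

lemma cfD'_det_ne_zero : (cfD' τ).det ≠ 0 := by
  have h := congrArg Matrix.det (cfD_mul_cfD' τ)
  rw [Matrix.det_mul, Matrix.det_one] at h
  exact right_ne_zero_of_mul_eq_one h

end Fermat.Agent.S20
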